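/-
Existence of Frobenius elements in the absolute Galois group of `ℚ`
(more generally in `Gal(L/ℚ)` for any Galois extension `L/ℚ`).

Main results (namespace `Fermat.Agent.Lib.Frobenius`):
* `exists_isFrobeniusAt_of_liesOver` : every valuation subring `A` of `L` with `ℓ ∈ A.nonunits`
  has a Frobenius element `σ` (`A.IsFrobeniusAt σ ℓ`).
* `exists_natCast_mem_nonunits` : valuation subrings over `ℓ` exist.
* `exists_isFrobeniusAt` : for `L = AlgebraicClosure ℚ`, existence of a pair `(A, σ)`.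
-/
import Mathlib
import Fermat.Prelude.Def_EllipticCurve_FrobeniusTrace
import Fermat.Prelude.Def_FLTPrelim_Ramification

set_option autoImplicit false
set_option linter.style.haveILetI false
set_option linter.unusedSectionVars false

namespace Fermat.Agent.Lib.Frobenius


open Polynomial

section Key

variable {L : Type*} [Field L]

theorem mul_mem_nonunits (A : ValuationSubring L) {a x : L} (ha : a ∈ A.nonunits) (hx : x ∈ A) :
    a * x ∈ A.nonunits := by
  rw [ValuationSubring.mem_nonunits_iff] at ha ⊢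
  rw [map_mul]
  have hx' : A.valuation x ≤ 1 := (A.valuation_le_one_iff x).mpr hx
  calc A.valuation a * A.valuation x ≤ A.valuation a * 1 := by gcongr
    _ = A.valuation a := mul_one _
    _ < 1 := ha

/-- Key induction: a root `x ∈ A` of a polynomial over `B` not all of whose coefficients lie in `Q`
is a fraction `z / y` with `y ∉ Q`. -/
theorem exists_mul_eq_of_aeval_eq_zero (A : ValuationSubring L) (B : Subalgebra ℤ L)
    (hB : ∀ y : L, IsIntegral B y → y ∈ B)
    (Q : Ideal B) (hQ : ∀ b : B, b ∈ Q ↔ (b : L) ∈ A.nonunits)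
    (x : L) (hx : x ∈ A) :
    ∀ (n : ℕ) (f : B[X]), f.natDegree ≤ n → aeval x f = 0 → (∃ i, f.coeff i ∉ Q) →
      ∃ y z : B, y ∉ Q ∧ x * (y : L) = (z : L) := by
  intro n
  induction n with
  | zero =>
    intro f hf h0 ⟨i, hi⟩
    exfalso
    rw [eq_C_of_natDegree_le_zero hf, aeval_C] at h0
    have h0' : f.coeff 0 = 0 := by
      have : ((f.coeff 0 : B) : L) = 0 := h0
      exact_mod_cast this
    apply hi
    rw [eq_C_of_natDegree_le_zero hf, coeff_C, h0']
    simp
  | succ n ih =>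
    intro f hf h0 ⟨i, hi⟩
    by_cases hfn : f.natDegree ≤ n
    · exact ih f hfn h0 ⟨i, hi⟩
    have hdeg : f.natDegree = n + 1 := le_antisymm hf (Nat.lt_of_not_le hfn)
    have hint : IsIntegral B (f.leadingCoeff • x) := isIntegral_leadingCoeff_smul f x h0
    have hw : f.leadingCoeff • x ∈ B := hB _ hint
    have hsmul : f.leadingCoeff • x = (f.leadingCoeff : L) * x := by
      rw [Algebra.smul_def]; rfl
    by_cases ha : f.leadingCoeff ∈ Q
    · -- reduce the degree
      let w : B := ⟨f.leadingCoeff • x, hw⟩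
      have hwQ : w ∈ Q := by
        rw [hQ]
        show f.leadingCoeff • x ∈ A.nonunits
        rw [hsmul]
        exact mul_mem_nonunits A ((hQ _).mp ha) hx
      let g : B[X] := f.eraseLead + C w * X ^ n
      have hg : g.natDegree ≤ n := by
        refine (natDegree_add_le _ _).trans (max_le ?_ ?_)
        · have := eraseLead_natDegree_le f
          omega
        · exact natDegree_C_mul_X_pow_le _ _
      have hfe : f.eraseLead + C f.leadingCoeff * X ^ (n + 1) = f := by
        rw [← hdeg]; exact eraseLead_add_C_mul_X_pow f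
      have hg0 : aeval x g = 0 := by
        have h1 : aeval x f = aeval x f.eraseLead + (f.leadingCoeff : L) * x ^ (n + 1) := by
          conv_lhs => rw [← hfe]
          rw [map_add, map_mul, aeval_C, map_pow, aeval_X]
          rfl
        have h2 : aeval x g = aeval x f.eraseLead + (w : L) * x ^ n := by
          show aeval x (f.eraseLead + C w * X ^ n) = _
          rw [map_add, map_mul, aeval_C, map_pow, aeval_X]
          rfl
        rw [h2]
        show aeval x f.eraseLead + (f.leadingCoeff • x) * x ^ n = 0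
        rw [hsmul, ← h0, h1]
        ring
      have hi' : i ≠ n + 1 := by
        rintro rfl
        apply hi
        rw [← hdeg]
        exact ha
      have hile : i ≤ n := by
        by_contra hlt
        apply hi
        rw [coeff_eq_zero_of_natDegree_lt (by omega)]
        exact Q.zero_mem
      refine ih g hg hg0 ⟨i, ?_⟩
      show (f.eraseLead + C w * X ^ n).coeff i ∉ Q
      rw [coeff_add, eraseLead_coeff_of_ne _ (by rw [hdeg]; exact hi'), coeff_C_mul_X_pow]
      split_ifs with hin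
      · intro hmem
        apply hi
        have := Q.sub_mem hmem hwQ
        simpa using this
      · simpa using hi
    · exact ⟨f.leadingCoeff, ⟨f.leadingCoeff • x, hw⟩, ha, by
        show x * (f.leadingCoeff : L) = f.leadingCoeff • x
        rw [hsmul, mul_comm]⟩

end Key


open Polynomial

section Star

variable {L : Type*} [Field L]

theorem integralClosure_le (A : ValuationSubring L) :
    ∀ y : L, IsIntegral ℤ y → y ∈ A := by
  intro y hy
  have h1 : IsIntegral A y := hy.tower_top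
  obtain ⟨a, ha⟩ := (IsIntegrallyClosed.isIntegral_iff (R := A) (K := L)).mp h1
  rw [← ha]
  exact a.2

theorem integralClosure_idem' :
    ∀ y : L, IsIntegral (integralClosure ℤ L) y → y ∈ integralClosure ℤ L := by
  intro y hy
  exact isIntegral_trans (R := ℤ) (A := integralClosure ℤ L) y hy

/-- The prime ideal of the ring of all algebraic integers cut out by a valuation subring. -/
def primeOf (A : ValuationSubring L) : Ideal (integralClosure ℤ L) where
  carrier := {b | (b : L) ∈ A.nonunits}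
  add_mem' ha hb := A.nonunits.add_mem ha hb
  zero_mem' := A.nonunits.zero_mem
  smul_mem' c b hb := by
    show ((c * b : integralClosure ℤ L) : L) ∈ A.nonunits
    have : ((c * b : integralClosure ℤ L) : L) = (b : L) * (c : L) := by
      push_cast; ring
    rw [this]
    exact mul_mem_nonunits A hb (integralClosure_le A _ c.2)

theorem mem_primeOf (A : ValuationSubring L) (b : integralClosure ℤ L) :
    b ∈ primeOf A ↔ (b : L) ∈ A.nonunits := Iff.rfl

theorem one_notMem_nonunits (A : ValuationSubring L) : (1 : L) ∉ A.nonunits := by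
  rw [ValuationSubring.mem_nonunits_iff, map_one]
  exact lt_irrefl _

theorem primeOf_ne_top (A : ValuationSubring L) : primeOf A ≠ ⊤ := by
  intro h
  have : (1 : integralClosure ℤ L) ∈ primeOf A := by rw [h]; trivial
  exact one_notMem_nonunits A this

theorem primeOf_isPrime (A : ValuationSubring L) : (primeOf A).IsPrime := by
  refine ⟨primeOf_ne_top A, ?_⟩
  intro a b hab
  by_contra hcon
  rw [not_or] at hcon
  obtain ⟨ha, hb⟩ := hcon
  rw [mem_primeOf, ValuationSubring.mem_nonunits_iff, not_lt] at ha hb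
  rw [mem_primeOf, ValuationSubring.mem_nonunits_iff] at hab
  have : A.valuation ((a * b : integralClosure ℤ L) : L) = A.valuation (a : L) * A.valuation (b : L) := by
    push_cast; rw [map_mul]
  rw [this] at hab
  exact absurd hab (not_lt.mpr (one_le_mul_of_one_le_of_one_le ha hb))

theorem intCast_mem_primeOf_iff (A : ValuationSubring L) (ℓ : ℕ) (hℓ : ℓ.Prime)
    (hℓA : (ℓ : L) ∈ A.nonunits) (c : ℤ) :
    (algebraMap ℤ (integralClosure ℤ L) c) ∈ primeOf A ↔ (ℓ : ℤ) ∣ c := by
  have hℓQ : (algebraMap ℤ (integralClosure ℤ L) (ℓ : ℤ)) ∈ primeOf A := by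
    rw [mem_primeOf]
    simpa using hℓA
  constructor
  · intro hc
    by_contra hndvd
    have hcop : IsCoprime (ℓ : ℤ) c := by
      rw [Int.isCoprime_iff_gcd_eq_one]
      have := (Nat.Prime.coprime_iff_not_dvd hℓ).mpr (fun h : ℓ ∣ c.natAbs => hndvd (Int.natCast_dvd.mpr h))
      simpa [Int.gcd] using this
    obtain ⟨u, v, huv⟩ := hcop
    apply primeOf_ne_top A
    rw [Ideal.eq_top_iff_one]
    have h1 : algebraMap ℤ (integralClosure ℤ L) (u * ℓ + v * c) ∈ primeOf A := by
      rw [map_add, map_mul, map_mul]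
      exact (primeOf A).add_mem ((primeOf A).mul_mem_left _ hℓQ) ((primeOf A).mul_mem_left _ hc)
    rw [huv, map_one] at h1
    exact h1
  · rintro ⟨d, rfl⟩
    rw [map_mul]
    exact (primeOf A).mul_mem_right _ hℓQ

theorem exists_mul_eq (A : ValuationSubring L) [CharZero L] (ℓ : ℕ) (hℓ : ℓ.Prime)
    (hℓA : (ℓ : L) ∈ A.nonunits) (x : L) (hx : x ∈ A) (hxalg : IsAlgebraic ℤ x) :
    ∃ y z : integralClosure ℤ L, y ∉ primeOf A ∧ x * (y : L) = (z : L) := by
  obtain ⟨p, hp0, hp⟩ := hxalg
  have hpp : aeval x p.primPart = 0 := aeval_primPart_eq_zero hp0 hp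
  have hprim : p.primPart.IsPrimitive := isPrimitive_primPart p
  have hex : ∃ i, ¬ (ℓ : ℤ) ∣ p.primPart.coeff i := by
    by_contra hcon
    push Not at hcon
    have hdvd : C (ℓ : ℤ) ∣ p.primPart := (C_dvd_iff_dvd_coeff _ _).mpr hcon
    have hunit := hprim _ hdvd
    have := Int.isUnit_iff.mp hunit
    have h2 := hℓ.two_le
    omega
  obtain ⟨i, hi⟩ := hex
  let f : (integralClosure ℤ L)[X] := p.primPart.map (algebraMap ℤ (integralClosure ℤ L))
  have hf0 : aeval x f = 0 := by
    show aeval x (p.primPart.map (algebraMap ℤ (integralClosure ℤ L))) = 0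
    rw [aeval_map_algebraMap]
    exact hpp
  refine exists_mul_eq_of_aeval_eq_zero A (integralClosure ℤ L) integralClosure_idem' (primeOf A)
    (mem_primeOf A) x hx f.natDegree f le_rfl hf0 ⟨i, ?_⟩
  show (p.primPart.map (algebraMap ℤ (integralClosure ℤ L))).coeff i ∉ primeOf A
  rw [coeff_map, intCast_mem_primeOf_iff A ℓ hℓ hℓA]
  exact hi

end Star


open Polynomial
open scoped Pointwise

section Det

variable {L : Type*} [Field L]

theorem mem_of_mul_eq (A : ValuationSubring L) (x : L) (y z : integralClosure ℤ L)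
    (hy : y ∉ primeOf A) (h : x * (y : L) = (z : L)) : x ∈ A := by
  rw [mem_primeOf, ValuationSubring.mem_nonunits_iff_or, not_or, not_not] at hy
  obtain ⟨hy0, hyinv⟩ := hy
  have : x = (z : L) * (y : L)⁻¹ := by
    rw [← h, mul_assoc, mul_inv_cancel₀ hy0, mul_one]
  rw [this]
  exact A.mul_mem _ _ (integralClosure_le A _ z.2) hyinv

theorem le_of_primeOf_eq [CharZero L] (hL : ∀ x : L, IsAlgebraic ℤ x) (A A' : ValuationSubring L)
    (ℓ : ℕ) (hℓ : ℓ.Prime) (hA : (ℓ : L) ∈ A.nonunits)
    (h : primeOf A = primeOf A') : A ≤ A' := by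
  intro x hx
  obtain ⟨y, z, hy, hxy⟩ := exists_mul_eq A ℓ hℓ hA x hx (hL x)
  rw [h] at hy
  exact mem_of_mul_eq A' x y z hy hxy

theorem eq_of_primeOf_eq [CharZero L] (hL : ∀ x : L, IsAlgebraic ℤ x) (A A' : ValuationSubring L)
    (ℓ : ℕ) (hℓ : ℓ.Prime) (hA : (ℓ : L) ∈ A.nonunits) (hA' : (ℓ : L) ∈ A'.nonunits)
    (h : primeOf A = primeOf A') : A = A' :=
  le_antisymm (le_of_primeOf_eq hL A A' ℓ hℓ hA h) (le_of_primeOf_eq hL A' A ℓ hℓ hA' h.symm)

end Det

section Gal

variable {L : Type*} [Field L] [Algebra ℚ L]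

theorem mem_nonunits_smul_iff (A : ValuationSubring L) (σ : L ≃ₐ[ℚ] L) (x : L) :
    x ∈ (σ • A).nonunits ↔ σ⁻¹ • x ∈ A.nonunits := by
  rw [ValuationSubring.mem_nonunits_iff_or, ValuationSubring.mem_nonunits_iff_or,
    ValuationSubring.mem_pointwise_smul_iff_inv_smul_mem, smul_inv'', smul_eq_zero_iff_eq]

theorem mem_primeOf_smul_iff (A : ValuationSubring L) (σ : L ≃ₐ[ℚ] L) (b : integralClosure ℤ L) :
    b ∈ primeOf (σ • A) ↔ σ⁻¹ • b ∈ primeOf A := by
  rw [mem_primeOf, mem_primeOf, mem_nonunits_smul_iff]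
  rfl

theorem primeOf_smul (A : ValuationSubring L) (σ : L ≃ₐ[ℚ] L) :
    primeOf (σ • A) = σ • primeOf A := by
  ext b
  rw [mem_primeOf_smul_iff, Ideal.mem_pointwise_smul_iff_inv_smul_mem]

variable [IsGalois ℚ L]

theorem isAlgebraic_int (x : L) : IsAlgebraic ℤ x :=
  (IsFractionRing.isAlgebraic_iff ℤ ℚ L).mpr (Algebra.IsAlgebraic.isAlgebraic x)

theorem isInvariant_integralClosure :
    Algebra.IsInvariant ℤ (integralClosure ℤ L) (L ≃ₐ[ℚ] L) := by
  refine ⟨fun b hb => ?_⟩
  have hfix : ∀ g : L ≃ₐ[ℚ] L, g (b : L) = (b : L) := fun g => congrArg Subtype.val (hb g)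
  obtain ⟨q, hq⟩ := (InfiniteGalois.mem_range_algebraMap_iff_fixed (k := ℚ) (K := L) (b : L)).mpr hfix
  have hbint : IsIntegral ℤ (b : L) := b.2
  rw [← hq, isIntegral_algebraMap_iff (algebraMap ℚ L).injective] at hbint
  obtain ⟨n, hn⟩ := (IsIntegrallyClosed.isIntegral_iff (R := ℤ) (K := ℚ)).mp hbint
  refine ⟨n, Subtype.ext ?_⟩
  show algebraMap ℤ L n = (b : L)
  rw [← hq, ← hn, ← IsScalarTower.algebraMap_apply]

theorem stabilizer_isOpen_integralClosure (b : integralClosure ℤ L) :
    IsOpen (MulAction.stabilizer (L ≃ₐ[ℚ] L) b : Set (L ≃ₐ[ℚ] L)) := by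
  have h := stabilizer_isOpen_of_isIntegral (K := ℚ) (L := L) (b : L)
  convert h using 1
  ext g
  simp only [SetLike.mem_coe, MulAction.mem_stabilizer_iff]
  constructor
  · intro hg; exact congrArg Subtype.val hg
  · intro hg; exact Subtype.ext hg

end Gal


open Polynomial
open scoped Pointwise

section Main

variable {L : Type*} [Field L] [Algebra ℚ L] [IsGalois ℚ L]

/-- Existence of an element of the Galois group stabilising the prime `primeOf A` and acting as
the `ℓ`-power map on the residue ring. -/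
theorem exists_stabilizer_frobenius (A : ValuationSubring L) (ℓ : ℕ) (hℓ : ℓ.Prime)
    (hA : (ℓ : L) ∈ A.nonunits) :
    ∃ σ : L ≃ₐ[ℚ] L, σ • primeOf A = primeOf A ∧
      ∀ b : integralClosure ℤ L, σ • b - b ^ ℓ ∈ primeOf A := by
  classical
  haveI : CharZero L := algebraRat.charZero L
  haveI : Fact ℓ.Prime := ⟨hℓ⟩
  haveI hQprime : (primeOf A).IsPrime := primeOf_isPrime A
  haveI hPmax : (Ideal.span {(ℓ : ℤ)}).IsMaximal := Int.ideal_span_isMaximal_of_prime ℓ
  haveI hover : (primeOf A).LiesOver (Ideal.span {(ℓ : ℤ)}) := by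
    constructor
    refine hPmax.eq_of_le ?_ ?_
    · intro h
      apply primeOf_ne_top A
      rw [Ideal.eq_top_iff_one]
      have : (1 : ℤ) ∈ (primeOf A).under ℤ := by rw [h]; trivial
      simpa [Ideal.under_def] using this
    · rw [Ideal.span_le]
      intro x hx
      rw [Set.mem_singleton_iff] at hx
      subst hx
      show algebraMap ℤ (integralClosure ℤ L) (ℓ : ℤ) ∈ primeOf A
      rw [intCast_mem_primeOf_iff A ℓ hℓ hA]
  letI : TopologicalSpace (integralClosure ℤ L) := ⊥
  haveI : DiscreteTopology (integralClosure ℤ L) := ⟨rfl⟩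
  haveI : ContinuousSMul (L ≃ₐ[ℚ] L) (integralClosure ℤ L) :=
    continuousSMul_iff_stabilizer_isOpen.mpr stabilizer_isOpen_integralClosure
  haveI : Algebra.IsInvariant ℤ (integralClosure ℤ L) (L ≃ₐ[ℚ] L) := isInvariant_integralClosure
  have hsurj := Ideal.Quotient.stabilizerHom_surjective_of_profinite (G := L ≃ₐ[ℚ] L)
    (Ideal.span {(ℓ : ℤ)}) (primeOf A)
  haveI hQmax : (primeOf A).IsMaximal :=
    Ideal.IsMaximal.of_liesOver_isMaximal (primeOf A) (Ideal.span {(ℓ : ℤ)})
  letI : Field (ℤ ⧸ Ideal.span {(ℓ : ℤ)}) := Ideal.Quotient.field _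
  letI : Field (integralClosure ℤ L ⧸ primeOf A) := Ideal.Quotient.field _
  haveI : CharP (integralClosure ℤ L ⧸ primeOf A) ℓ := by
    rw [CharP.charP_iff_prime_eq_zero hℓ]
    have : ((ℓ : integralClosure ℤ L) : integralClosure ℤ L ⧸ primeOf A) = 0 := by
      rw [Ideal.Quotient.eq_zero_iff_mem]
      have := (intCast_mem_primeOf_iff A ℓ hℓ hA (ℓ : ℤ)).mpr dvd_rfl
      simpa using this
    simpa using this
  let φ : (integralClosure ℤ L ⧸ primeOf A) →ₐ[ℤ ⧸ Ideal.span {(ℓ : ℤ)}]
      (integralClosure ℤ L ⧸ primeOf A) :=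
    { frobenius (integralClosure ℤ L ⧸ primeOf A) ℓ with
      commutes' := by
        intro r
        obtain ⟨n, rfl⟩ := Ideal.Quotient.mk_surjective r
        show frobenius _ ℓ _ = _
        have : algebraMap (ℤ ⧸ Ideal.span {(ℓ : ℤ)}) (integralClosure ℤ L ⧸ primeOf A)
            (Ideal.Quotient.mk _ n) = ((n : ℤ) : integralClosure ℤ L ⧸ primeOf A) := by
          rw [← Ideal.Quotient.algebraMap_eq, ← IsScalarTower.algebraMap_apply]
          simp
        rw [this, map_intCast] }
  have hφ : Function.Bijective φ := Algebra.IsAlgebraic.algHom_bijective φ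
  obtain ⟨⟨σ, hσ⟩, hσφ⟩ := hsurj (AlgEquiv.ofBijective φ hφ)
  refine ⟨σ, hσ, fun b => ?_⟩
  have h1 := congrArg (fun e => e (Ideal.Quotient.mk (primeOf A) b)) hσφ
  simp only [Ideal.Quotient.stabilizerHom_apply, AlgEquiv.coe_ofBijective] at h1
  rw [← Ideal.Quotient.eq]
  have h2 : Ideal.Quotient.mk (primeOf A) (σ • b) = φ (Ideal.Quotient.mk (primeOf A) b) := h1
  rw [h2, map_pow]
  rfl

end Main


open Polynomial
open scoped Pointwise

section Main

variable {L : Type*} [Field L] [Algebra ℚ L] [IsGalois ℚ L]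

theorem sub_mem_nonunits (A : ValuationSubring L) {a b : L} (ha : a ∈ A.nonunits)
    (hb : b ∈ A.nonunits) : a - b ∈ A.nonunits := by
  rw [sub_eq_add_neg]
  exact A.nonunits.add_mem ha (A.nonunits.neg_mem hb)

/-- Every valuation subring lying over `ℓ` admits a Frobenius element. -/
theorem exists_isFrobeniusAt_of_liesOver (A : ValuationSubring L) (ℓ : ℕ) (hℓ : ℓ.Prime)
    (hA : (ℓ : L) ∈ A.nonunits) :
    ∃ σ : L ≃ₐ[ℚ] L, A.IsFrobeniusAt σ ℓ := by
  classical
  haveI : CharZero L := algebraRat.charZero L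
  obtain ⟨σ, hσQ, hσF⟩ := exists_stabilizer_frobenius A ℓ hℓ hA
  -- `σ` lies in the decomposition group
  have hσA : σ • A = A := by
    refine eq_of_primeOf_eq isAlgebraic_int (σ • A) A ℓ hℓ ?_ hA ?_
    · rw [mem_nonunits_smul_iff]
      have : σ⁻¹ • (ℓ : L) = (ℓ : L) := map_natCast σ⁻¹ ℓ
      rw [this]; exact hA
    · rw [primeOf_smul, hσQ]
  have hσD : σ ∈ A.decompositionSubgroup ℚ := hσA
  refine ⟨σ, hσD, ?_⟩
  intro x
  obtain ⟨a, rfl⟩ := IsLocalRing.residue_surjective x
  rw [← IsLocalRing.ResidueField.residue_smul, ← map_pow, eq_comm, ← sub_eq_zero, ← map_sub,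
    IsLocalRing.residue_eq_zero_iff, ← ValuationSubring.coe_mem_nonunits_iff]
  -- goal: `a ^ ℓ - σ a ∈ A.nonunits`
  show (a : L) ^ ℓ - σ (a : L) ∈ A.nonunits
  obtain ⟨y, z, hy, hyz⟩ := exists_mul_eq A ℓ hℓ hA (a : L) a.2 (isAlgebraic_int _)
  -- Frobenius congruences for `y` and `z`
  have hFy : σ (y : L) - (y : L) ^ ℓ ∈ A.nonunits := hσF y
  have hFz : σ (z : L) - (z : L) ^ ℓ ∈ A.nonunits := hσF z
  -- `σ y` is a unit of `A`
  have hσy : σ • y ∉ primeOf A := by
    intro hmem
    apply hy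
    have : σ • y ∈ σ • primeOf A := by rw [hσQ]; exact hmem
    exact Ideal.smul_mem_pointwise_smul_iff.mp this
  have hσy' : σ (y : L) ∉ A.nonunits := hσy
  rw [ValuationSubring.mem_nonunits_iff_or, not_or, not_not] at hσy'
  obtain ⟨hσy0, hσyinv⟩ := hσy'
  have hal : (a : L) ^ ℓ ∈ A := A.pow_mem a.2 ℓ
  -- main computation
  have hmain : ((a : L) ^ ℓ - σ (a : L)) * σ (y : L) ∈ A.nonunits := by
    have e : ((a : L) ^ ℓ - σ (a : L)) * σ (y : L) =
        (σ (y : L) - (y : L) ^ ℓ) * (a : L) ^ ℓ - (σ (z : L) - (z : L) ^ ℓ) := by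
      have h1 : σ (a : L) * σ (y : L) = σ (z : L) := by rw [← map_mul, hyz]
      have h2 : (a : L) ^ ℓ * (y : L) ^ ℓ = (z : L) ^ ℓ := by rw [← mul_pow, hyz]
      linear_combination h2 - h1
    rw [e]
    exact sub_mem_nonunits A (mul_mem_nonunits A hFy hal) hFz
  have : (a : L) ^ ℓ - σ (a : L) = (((a : L) ^ ℓ - σ (a : L)) * σ (y : L)) * (σ (y : L))⁻¹ := by
    rw [mul_assoc, mul_inv_cancel₀ hσy0, mul_one]
  rw [this]
  exact mul_mem_nonunits A hmain hσyinv

end Main


section Exists

variable {L : Type*} [Field L] [CharZero L]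

/-- For every prime `ℓ` there is a valuation subring lying over `ℓ`. -/
theorem exists_natCast_mem_nonunits (ℓ : ℕ) (hℓ : ℓ.Prime) :
    ∃ A : ValuationSubring L, (ℓ : L) ∈ A.nonunits := by
  let R : Subring L := (Int.castRingHom L).range
  let x : R := ⟨(ℓ : L), ⟨(ℓ : ℤ), by simp⟩⟩
  have hne : Ideal.span {x} ≠ ⊤ := by
    intro h
    rw [Ideal.eq_top_iff_one, Ideal.mem_span_singleton'] at h
    obtain ⟨⟨c, n, rfl⟩, hc⟩ := h
    have h1 : ((Int.castRingHom L) n) * (ℓ : L) = 1 := congrArg Subtype.val hc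
    have h2 : ((n * (ℓ : ℤ) : ℤ) : L) = ((1 : ℤ) : L) := by
      push_cast
      simpa using h1
    have h3 : n * (ℓ : ℤ) = 1 := Int.cast_injective h2
    have h4 : (ℓ : ℤ) ∣ 1 := Dvd.intro_left n h3
    have h5 := Int.eq_one_of_dvd_one (by positivity) h4
    have := hℓ.two_le
    omega
  obtain ⟨A, -, hA⟩ := Ideal.image_subset_nonunits_valuationSubring (Ideal.span {x}) hne
  exact ⟨A, hA ⟨x, Ideal.subset_span rfl, rfl⟩⟩

end Exists

section QBar

theorem ratAlgebra_eq :
    (DivisionRing.toRatAlgebra : Algebra ℚ (AlgebraicClosure ℚ)) = AlgebraicClosure.instAlgebra ℚ :=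
  Subsingleton.elim _ _

theorem isAlgebraic_QBar : Algebra.IsAlgebraic ℚ (AlgebraicClosure ℚ) := by
  have h := AlgebraicClosure.isAlgebraic ℚ
  rw [← ratAlgebra_eq] at h
  exact h

theorem isAlgClosure_QBar : IsAlgClosure ℚ (AlgebraicClosure ℚ) := by
  haveI := isAlgebraic_QBar
  exact ⟨inferInstance, inferInstance⟩

theorem isGalois_QBar : IsGalois ℚ (AlgebraicClosure ℚ) := by
  haveI := isAlgebraic_QBar
  haveI := isAlgClosure_QBar
  haveI : Normal ℚ (AlgebraicClosure ℚ) := IsAlgClosure.normal ℚ (AlgebraicClosure ℚ)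
  haveI : Algebra.IsSeparable ℚ (AlgebraicClosure ℚ) := inferInstance
  exact ⟨⟩

/-- Every valuation subring of `ℚ̄` lying over `ℓ` has a Frobenius element. -/
theorem exists_isFrobeniusAt_of_liesOverPrime (A : ValuationSubring (AlgebraicClosure ℚ))
    (ℓ : ℕ) (hℓ : ℓ.Prime) (hA : A.LiesOverPrime ℓ) :
    ∃ σ : AlgebraicClosure ℚ ≃ₐ[ℚ] AlgebraicClosure ℚ, A.IsFrobeniusAt σ ℓ := by
  haveI := isGalois_QBar
  exact exists_isFrobeniusAt_of_liesOver A ℓ hℓ hA

/-- Valuation subrings of `ℚ̄` over `ℓ` exist. -/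
theorem exists_liesOverPrime (ℓ : ℕ) (hℓ : ℓ.Prime) :
    ∃ A : ValuationSubring (AlgebraicClosure ℚ), A.LiesOverPrime ℓ :=
  exists_natCast_mem_nonunits ℓ hℓ

/-- Existence of Frobenius elements in the absolute Galois group of `ℚ`. -/
theorem exists_isFrobeniusAt (ℓ : ℕ) (hℓ : ℓ.Prime) :
    ∃ (A : ValuationSubring (AlgebraicClosure ℚ))
      (σ : AlgebraicClosure ℚ ≃ₐ[ℚ] AlgebraicClosure ℚ),
      A.LiesOverPrime ℓ ∧ A.IsFrobeniusAt σ ℓ := by
  obtain ⟨A, hA⟩ := exists_liesOverPrime ℓ hℓ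
  obtain ⟨σ, hσ⟩ := exists_isFrobeniusAt_of_liesOverPrime A ℓ hℓ hA
  exact ⟨A, σ, hA, hσ⟩

end QBar

end Fermat.Agent.Lib.Frobenius
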